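import Mathlib
import Fermat.Prelude.Def_GaloisRep_Residual

/-!
# S48 (Deligne–Serre), brick J.DENS: finite-sum density predicates

`UpDens E η` / `LowDens E δ` say that the set of primes `E` has upper (lower) Dirichlet density
at most `η` (at least `δ`), in a form that only mentions finite sums
`∑ p ∈ P, 1 / p ^ s` for `1 < s ≤ 2`, so that no `tsum` or `limsup` is needed by the consumers.

`ChebLower` is the one statement consumed from the Chebotarev brick: the lower-density half of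
Chebotarev's theorem for subsets stable under conjugation and inversion.
-/

set_option autoImplicit false

open scoped Pointwise

namespace Fermat.Agent.S48.Dens

local notation "Qb" => AlgebraicClosure ℚ
local notation "Γ" => (AlgebraicClosure ℚ ≃ₐ[ℚ] AlgebraicClosure ℚ)

/-! ## The logarithmic scale -/

/-- `log (1 / (s - 1))` is nonnegative on `(1, 2]`. -/
theorem log_scale_nonneg {s : ℝ} (hs : 1 < s) (hs2 : s ≤ 2) : 0 ≤ Real.log (1 / (s - 1)) := by
  apply Real.log_nonneg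
  rw [le_div_iff₀ (by linarith)]
  linarith

/-- `log (1 / (s - 1))` is unbounded on `(1, 2]`. -/
theorem exists_log_scale_gt (B : ℝ) : ∃ s : ℝ, 1 < s ∧ s ≤ 2 ∧ B < Real.log (1 / (s - 1)) := by
  refine ⟨1 + Real.exp (-(|B| + 1)), ?_, ?_, ?_⟩
  · have := Real.exp_pos (-(|B| + 1))
    linarith
  · have h : Real.exp (-(|B| + 1)) ≤ 1 := by
      rw [Real.exp_le_one_iff]
      have := abs_nonneg B
      linarith
    linarith
  · have h : (1 : ℝ) + Real.exp (-(|B| + 1)) - 1 = Real.exp (-(|B| + 1)) := by ring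
    rw [h, one_div, Real.log_inv, Real.log_exp]
    have := le_abs_self B
    linarith

/-! ## Density predicates -/

/-- Upper Dirichlet density at most `η`, finite-sum form. -/
def UpDens (E : Set ℕ) (η : ℝ) : Prop :=
  ∃ C : ℝ, ∀ s : ℝ, 1 < s → s ≤ 2 → ∀ P : Finset ℕ, (∀ p ∈ P, p.Prime ∧ p ∈ E) →
    ∑ p ∈ P, 1 / (p : ℝ) ^ s ≤ η * Real.log (1 / (s - 1)) + C

/-- Lower Dirichlet density at least `δ`, finite-sum form. -/
def LowDens (E : Set ℕ) (δ : ℝ) : Prop :=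
  ∀ ε : ℝ, 0 < ε → ∃ C : ℝ, ∀ s : ℝ, 1 < s → s ≤ 2 →
    ∃ P : Finset ℕ, (∀ p ∈ P, p.Prime ∧ p ∈ E) ∧
      (δ - ε) * Real.log (1 / (s - 1)) - C ≤ ∑ p ∈ P, 1 / (p : ℝ) ^ s

theorem term_nonneg (p : ℕ) (s : ℝ) : 0 ≤ 1 / (p : ℝ) ^ s := by
  have : (0 : ℝ) ≤ (p : ℝ) ^ s := Real.rpow_nonneg (Nat.cast_nonneg p) s
  positivity

theorem term_le_one {p : ℕ} (hp : p.Prime) {s : ℝ} (hs : 1 < s) : 1 / (p : ℝ) ^ s ≤ 1 := by
  have h1 : (1 : ℝ) ≤ (p : ℝ) := by exact_mod_cast hp.one_lt.le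
  have h2 : (1 : ℝ) ≤ (p : ℝ) ^ s := Real.one_le_rpow h1 (by linarith)
  rw [div_le_one (by linarith)]
  exact h2

theorem UpDens.mono {E E' : Set ℕ} {η η' : ℝ} (h : UpDens E η) (hE : E' ⊆ E) (hη : η ≤ η') :
    UpDens E' η' := by
  obtain ⟨C, hC⟩ := h
  refine ⟨C, fun s hs hs2 P hP => ?_⟩
  have h1 := hC s hs hs2 P (fun p hp => ⟨(hP p hp).1, hE (hP p hp).2⟩)
  have h2 := mul_le_mul_of_nonneg_right hη (log_scale_nonneg hs hs2)
  linarith

theorem upDens_empty : UpDens ∅ 0 := by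
  refine ⟨0, fun s _ _ P hP => ?_⟩
  have : P = ∅ := by
    apply Finset.eq_empty_of_forall_notMem
    intro p hp
    exact (hP p hp).2
  simp [this]

theorem UpDens.union {E₁ E₂ : Set ℕ} {η₁ η₂ : ℝ} (h₁ : UpDens E₁ η₁) (h₂ : UpDens E₂ η₂) :
    UpDens (E₁ ∪ E₂) (η₁ + η₂) := by
  classical
  obtain ⟨C₁, hC₁⟩ := h₁
  obtain ⟨C₂, hC₂⟩ := h₂
  refine ⟨C₁ + C₂, fun s hs hs2 P hP => ?_⟩
  have e1 := hC₁ s hs hs2 (P.filter (· ∈ E₁)) (fun p hp => by
    rw [Finset.mem_filter] at hp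
    exact ⟨(hP p hp.1).1, hp.2⟩)
  have e2 := hC₂ s hs hs2 (P.filter (fun p => ¬ p ∈ E₁)) (fun p hp => by
    rw [Finset.mem_filter] at hp
    exact ⟨(hP p hp.1).1, ((hP p hp.1).2).resolve_left hp.2⟩)
  have e3 := Finset.sum_filter_add_sum_filter_not P (· ∈ E₁) (fun p => 1 / (p : ℝ) ^ s)
  rw [← e3]
  linarith

theorem UpDens.biUnion {ι : Type*} (T : Finset ι) (E : ι → Set ℕ) (η : ι → ℝ)
    (h : ∀ i ∈ T, UpDens (E i) (η i)) : UpDens (⋃ i ∈ T, E i) (∑ i ∈ T, η i) := by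
  classical
  induction T using Finset.induction_on with
  | empty => simpa using upDens_empty
  | insert i T hi ih =>
    rw [Finset.sum_insert hi, Finset.set_biUnion_insert]
    exact (h i (Finset.mem_insert_self i T)).union
      (ih fun j hj => h j (Finset.mem_insert_of_mem hj))

theorem upDens_of_finite {F : Set ℕ} (hF : F.Finite) : UpDens F 0 := by
  classical
  refine ⟨hF.toFinset.card, fun s hs _ P hP => ?_⟩
  have h1 : ∑ p ∈ P, 1 / (p : ℝ) ^ s ≤ ∑ _p ∈ P, (1 : ℝ) :=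
    Finset.sum_le_sum fun p hp => term_le_one (hP p hp).1 hs
  have h2 : P ⊆ hF.toFinset := fun p hp => hF.mem_toFinset.mpr (hP p hp).2
  have h3 : (P.card : ℝ) ≤ hF.toFinset.card := by exact_mod_cast Finset.card_le_card h2
  simp only [Finset.sum_const, nsmul_eq_mul, mul_one] at h1
  linarith

theorem UpDens.union_finite {E F : Set ℕ} {η : ℝ} (h : UpDens E η) (hF : F.Finite) :
    UpDens (E ∪ F) η := by
  have := h.union (upDens_of_finite hF)
  simpa using this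

/-- A set of lower density `≥ δ` contained in a set of upper density `≤ η` forces `δ ≤ η`. -/
theorem le_of_lowDens_of_upDens {E E' : Set ℕ} {δ η : ℝ} (hl : LowDens E δ) (hu : UpDens E' η)
    (hE : E ⊆ E') : δ ≤ η := by
  by_contra hlt
  push Not at hlt
  obtain ⟨C₁, hC₁⟩ := hl ((δ - η) / 2) (by linarith)
  obtain ⟨C₂, hC₂⟩ := hu
  obtain ⟨s, hs, hs2, hB⟩ := exists_log_scale_gt (2 * (C₁ + C₂) / (δ - η))
  obtain ⟨P, hP, hPs⟩ := hC₁ s hs hs2
  have h2 := hC₂ s hs hs2 P (fun p hp => ⟨(hP p hp).1, hE (hP p hp).2⟩)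
  have h3 : 2 * (C₁ + C₂) < Real.log (1 / (s - 1)) * (δ - η) := by
    rwa [div_lt_iff₀ (by linarith)] at hB
  nlinarith

/-! ## Frobenius elements: transport by conjugation -/

theorem liesOverPrime_smul {A : ValuationSubring Qb} {p : ℕ} (hA : A.LiesOverPrime p) (τ : Γ) :
    (τ • A).LiesOverPrime p := by
  unfold ValuationSubring.LiesOverPrime at hA ⊢
  rw [ValuationSubring.mem_nonunits_iff_or] at hA ⊢
  rcases hA with hA | hA
  · exact Or.inl hA
  · refine Or.inr fun h => hA ?_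
    rw [ValuationSubring.mem_pointwise_smul_iff_inv_smul_mem] at h
    have e : τ⁻¹ • ((p : Qb)⁻¹) = (p : Qb)⁻¹ := by
      change τ⁻¹ ((p : Qb)⁻¹) = (p : Qb)⁻¹
      rw [map_inv₀, map_natCast]
    rwa [e] at h

theorem mem_nonunits_smul_iff (A : ValuationSubring Qb) (τ : Γ) (x : Qb) :
    x ∈ (τ • A).nonunits ↔ τ⁻¹ x ∈ A.nonunits := by
  rw [ValuationSubring.mem_nonunits_iff_or, ValuationSubring.mem_nonunits_iff_or,
    ValuationSubring.mem_pointwise_smul_iff_inv_smul_mem, ← map_inv₀,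
    EmbeddingLike.map_eq_zero_iff]
  rfl

/-- A Frobenius element is congruent to the `q`-th power map modulo the maximal ideal. -/
theorem frob_sub_pow_mem {A : ValuationSubring Qb} {σ : Γ} {q : ℕ} (h : A.IsFrobeniusAt σ q)
    {y : Qb} (hy : y ∈ A) : σ y - y ^ q ∈ A.nonunits := by
  obtain ⟨hs, hfrob⟩ := h
  have h1 := hfrob (IsLocalRing.residue A ⟨y, hy⟩)
  rw [← IsLocalRing.ResidueField.residue_smul, ← map_pow, ← sub_eq_zero, ← map_sub,
    IsLocalRing.residue_eq_zero_iff, ValuationSubring.valuation_lt_one_iff] at h1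
  exact A.mem_nonunits_iff.mpr h1

/-- Conjugates of Frobenius elements are Frobenius elements (at the conjugate place). -/
theorem isFrobeniusAt_conj {A : ValuationSubring Qb} {σ : Γ} {q : ℕ} (h : A.IsFrobeniusAt σ q)
    (τ : Γ) : (τ • A).IsFrobeniusAt (τ * σ * τ⁻¹) q := by
  have hσ : σ • A = A := MulAction.mem_stabilizer_iff.mp h.mem_decompositionSubgroup
  have hd : τ * σ * τ⁻¹ ∈ (τ • A).decompositionSubgroup ℚ := by
    apply MulAction.mem_stabilizer_iff.mpr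
    rw [mul_smul, mul_smul, inv_smul_smul, hσ]
  refine ⟨hd, fun x => ?_⟩
  obtain ⟨⟨y, hy⟩, rfl⟩ := IsLocalRing.residue_surjective x
  rw [← IsLocalRing.ResidueField.residue_smul, ← map_pow, ← sub_eq_zero, ← map_sub,
    IsLocalRing.residue_eq_zero_iff, ValuationSubring.valuation_lt_one_iff,
    ← ValuationSubring.mem_nonunits_iff]
  have hy' : τ⁻¹ y ∈ A := by
    have := (ValuationSubring.mem_pointwise_smul_iff_inv_smul_mem (g := τ) (S := A) (x := y)).mp hy
    exact this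
  have h1 := frob_sub_pow_mem h hy'
  have e : τ⁻¹ ((τ * σ * τ⁻¹) y - y ^ q) = σ (τ⁻¹ y) - (τ⁻¹ y) ^ q := by
    rw [map_sub, map_pow]
    congr 1
    change τ⁻¹ (τ (σ (τ⁻¹ y))) = σ (τ⁻¹ y)
    change τ.symm (τ (σ (τ⁻¹ y))) = σ (τ⁻¹ y)
    exact AlgEquiv.symm_apply_apply τ _
  change (τ * σ * τ⁻¹) y - y ^ q ∈ (τ • A).nonunits
  rw [mem_nonunits_smul_iff, e]
  exact h1

/-! ## Finite level implies finite image -/

theorem finite_range {M : Type} [Group M] (φ : Γ →* M)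
    (h : GaloisFactorsThroughFiniteLevel φ) : Finite φ.range := by
  obtain ⟨L, hL, hφ⟩ := h
  let f : Γ → (L →ₐ[ℚ] Qb) := fun σ => (σ : Qb →ₐ[ℚ] Qb).comp L.val
  have key : ∀ σ τ : Γ, f σ = f τ → φ σ = φ τ := by
    intro σ τ hst
    have h1 : φ (σ⁻¹ * τ) = 1 := by
      apply hφ
      intro x hx
      have h2 : σ x = τ x := congrArg (fun g : L →ₐ[ℚ] Qb => g ⟨x, hx⟩) hst
      change σ⁻¹ (τ x) = x
      rw [← h2]
      change σ.symm (σ x) = x
      exact AlgEquiv.symm_apply_apply σ x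
    rw [map_mul, map_inv] at h1
    exact inv_mul_eq_one.mp h1
  have hfin : Finite (Set.range f) := inferInstance
  apply Finite.of_surjective
    (fun a : Set.range f => (⟨φ a.2.choose, ⟨_, rfl⟩⟩ : φ.range))
  rintro ⟨_, σ, rfl⟩
  refine ⟨⟨f σ, σ, rfl⟩, ?_⟩
  apply Subtype.ext
  exact key _ _ (Exists.choose_spec (⟨σ, rfl⟩ : ∃ τ, f τ = f σ))

theorem finiteLevel_of_ker_le {M M' : Type} [Group M] [Group M'] (φ : Γ →* M) (φ' : Γ →* M')
    (h : GaloisFactorsThroughFiniteLevel φ) (hker : ∀ g, φ g = 1 → φ' g = 1) :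
    GaloisFactorsThroughFiniteLevel φ' := by
  obtain ⟨L, hL, hφ⟩ := h
  exact ⟨L, hL, fun σ hσ => hker σ (hφ σ hσ)⟩

/-! ## The Chebotarev interface -/

/-- Primes outside `S` at which some Frobenius element is mapped into `X`. -/
def FrobPrimes {M : Type} (φ : Γ → M) (S : Finset ℕ) (X : Set M) : Set ℕ :=
  {p | p.Prime ∧ p ∉ S ∧ ∃ (A : ValuationSubring Qb) (σ : Γ),
    A.LiesOverPrime p ∧ A.IsFrobeniusAt σ p ∧ φ σ ∈ X}

/-- **Chebotarev, lower-density half, up to inversion**: for a homomorphism of finite level and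
a subset `X` of the target stable under conjugation (by the image) and inversion, the primes
having a Frobenius element mapped into `X` have lower Dirichlet density at least
`|X ∩ im φ| / |im φ|`. -/
def ChebLower : Prop :=
  ∀ (G : Type) [Group G] (φ : Γ →* G), GaloisFactorsThroughFiniteLevel φ →
    ∀ (S : Finset ℕ) (X : Set G), (∀ g ∈ X, ∀ h ∈ φ.range, h * g * h⁻¹ ∈ X) →
      (∀ g ∈ X, g⁻¹ ∈ X) →
      LowDens (FrobPrimes φ S X) ((Set.ncard (X ∩ (φ.range : Set G)) : ℝ) / Nat.card φ.range)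

/-- Frobenius images, together with their inverses, at the primes outside `S` and `E`. -/
def FrobImg {M : Type} [Group M] (φ : Γ →* M) (S : Finset ℕ) (E : Set ℕ) : Set M :=
  {g | ∃ p : ℕ, p.Prime ∧ p ∉ S ∧ p ∉ E ∧ ∃ (A : ValuationSubring Qb) (σ : Γ),
    A.LiesOverPrime p ∧ A.IsFrobeniusAt σ p ∧ (φ σ = g ∨ φ σ = g⁻¹)}

/-- **Counting step.** If the exceptional set `E` has upper density `≤ η`, then at most
`η · |im φ|` elements of the image are not Frobenius images (or inverses of such) at primes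
outside `E`. -/
theorem cheb_count (hcheb : ChebLower) {M : Type} [Group M] (φ : Γ →* M)
    (hfin : GaloisFactorsThroughFiniteLevel φ) (S : Finset ℕ) (E : Set ℕ) {η : ℝ}
    (hE : UpDens E η) :
    (Set.ncard ((FrobImg φ S E)ᶜ ∩ (φ.range : Set M)) : ℝ) ≤ η * Nat.card φ.range := by
  have hfr : Finite φ.range := finite_range φ hfin
  have hpos : (0 : ℝ) < Nat.card φ.range := by exact_mod_cast Nat.card_pos
  have hconj : ∀ g ∈ (FrobImg φ S E)ᶜ, ∀ h ∈ φ.range, h * g * h⁻¹ ∈ (FrobImg φ S E)ᶜ := by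
    rintro g hg h ⟨τ, rfl⟩ ⟨p, hp, hpS, hpE, A, σ, hA, hσ, hor⟩
    refine hg ⟨p, hp, hpS, hpE, τ⁻¹ • A, τ⁻¹ * σ * τ⁻¹⁻¹, liesOverPrime_smul hA _,
      isFrobeniusAt_conj hσ _, ?_⟩
    rcases hor with h1 | h1
    · left
      simp only [map_mul, map_inv, inv_inv, h1]
      group
    · right
      simp only [map_mul, map_inv, inv_inv, h1]
      group
  have hinv : ∀ g ∈ (FrobImg φ S E)ᶜ, g⁻¹ ∈ (FrobImg φ S E)ᶜ := by
    rintro g hg ⟨p, hp, hpS, hpE, A, σ, hA, hσ, hor⟩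
    refine hg ⟨p, hp, hpS, hpE, A, σ, hA, hσ, ?_⟩
    rcases hor with h1 | h1
    · exact Or.inr h1
    · exact Or.inl (by rw [h1, inv_inv])
  have hlow := hcheb M φ hfin S _ hconj hinv
  have hsub : FrobPrimes φ S (FrobImg φ S E)ᶜ ⊆ E := by
    rintro p ⟨hp, hpS, A, σ, hA, hσ, hX⟩
    by_contra hpE
    exact hX ⟨p, hp, hpS, hpE, A, σ, hA, hσ, Or.inl rfl⟩
  have hle := le_of_lowDens_of_upDens hlow hE hsub
  rwa [div_le_iff₀ hpos] at hle

end Fermat.Agent.S48.Dens
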