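import Mathlib
import Fermat.Prelude.Def_GaloisRep_Residual
import Fermat.Prelude.Def_Deformations_MatrixRepresentation
import Fermat.Agent.S48.FewTraces
import Fermat.Agent.S48.Dens.Basic

/-!
# S48 (Deligne–Serre), brick J.DENS, Step 3: a uniform bound for the residual images

If, outside a set of primes of upper density `≤ 1/8`, the Frobenius elements of a
two-dimensional representation `ρbar` of finite level have (trace, determinant) in a finite set
`P`, then the semisimplification of `ρbar` has image of order at most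
`2 * max ((2 |P|) ^ 4) (4 |P|)` (Chebotarev's lower bound + `FewTraces`).
-/

set_option autoImplicit false

namespace Fermat.Agent.S48.Dens

local notation "Qb" => AlgebraicClosure ℚ
local notation "Γ" => (AlgebraicClosure ℚ ≃ₐ[ℚ] AlgebraicClosure ℚ)

open Matrix

section Pairs

variable {k : Type} [Field k]

theorem det_ne_zero_of_GL (g : GL (Fin 2) k) : g.val.det ≠ 0 :=
  ((Matrix.isUnit_iff_isUnit_det g.val).mp g.isUnit).ne_zero

/-- (trace, determinant) of a `2 × 2` invertible matrix from those of its inverse. -/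
theorem trace_det_eq_of_inv (g : GL (Fin 2) k) :
    (g.val.trace, g.val.det) =
      ((g⁻¹).val.trace / (g⁻¹).val.det, 1 / (g⁻¹).val.det) := by
  have hdet : g.val.det ≠ 0 := det_ne_zero_of_GL g
  have h1 : (g⁻¹).val = (g.val)⁻¹ := Matrix.coe_units_inv g
  have h2 : ((g.val)⁻¹).det = (g.val.det)⁻¹ := by
    rw [Matrix.det_nonsing_inv, Ring.inverse_eq_inv']
  have h3 : ((g.val)⁻¹).trace = (g.val.det)⁻¹ * g.val.trace := by
    rw [Matrix.inv_def, Matrix.trace_smul, Ring.inverse_eq_inv', Matrix.adjugate_fin_two,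
      Matrix.trace_fin_two_of, Matrix.trace_fin_two, smul_eq_mul]
    ring
  rw [h1, h2, h3]
  refine Prod.ext ?_ ?_
  · simp only
    field_simp
  · simp only
    field_simp

open Classical in
/-- The pairs (trace, det) of the elements of `P` and of their inverses. -/
noncomputable def pairs₂ (P : Finset (k × k)) : Finset (k × k) :=
  P ∪ P.image (fun x => (x.1 / x.2, 1 / x.2))

theorem card_pairs₂_le (P : Finset (k × k)) : (pairs₂ P).card ≤ 2 * P.card := by
  classical
  unfold pairs₂
  have h1 := Finset.card_union_le P (P.image (fun x : k × k => (x.1 / x.2, 1 / x.2)))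
  have h2 := Finset.card_image_le (s := P) (f := fun x : k × k => (x.1 / x.2, 1 / x.2))
  omega

theorem trace_det_mem_pairs₂ (φ : Γ →* GL (Fin 2) k) (S : Finset ℕ) (E : Set ℕ)
    (P : Finset (k × k))
    (hP : ∀ p : ℕ, p.Prime → p ∉ S → p ∉ E → ∀ (A : ValuationSubring Qb) (σ : Γ),
      A.LiesOverPrime p → A.IsFrobeniusAt σ p → ((φ σ).val.trace, (φ σ).val.det) ∈ P) :
    ∀ g ∈ FrobImg φ S E, (g.val.trace, g.val.det) ∈ pairs₂ P := by
  classical
  rintro g ⟨p, hp, hpS, hpE, A, σ, hA, hσ, hor⟩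
  have h := hP p hp hpS hpE A σ hA hσ
  unfold pairs₂
  rcases hor with h1 | h1
  · rw [h1] at h
    exact Finset.mem_union_left _ h
  · rw [h1] at h
    apply Finset.mem_union_right
    rw [Finset.mem_image]
    exact ⟨_, h, (trace_det_eq_of_inv g).symm⟩

end Pairs

section Count

variable {M : Type} [Group M]

/-- The non-Frobenius part of the image is at most one eighth of the image. -/
theorem ncard_compl_le (hcheb : ChebLower) (φ : Γ →* M)
    (hfin : GaloisFactorsThroughFiniteLevel φ) (S : Finset ℕ) (E : Set ℕ) {η : ℝ}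
    (hE : UpDens E η) (hη : η ≤ 1 / 8) :
    8 * Set.ncard ({g : φ.range | (g : M) ∈ FrobImg φ S E}ᶜ) ≤ Nat.card φ.range := by
  have hc := cheb_count hcheb φ hfin S E hE
  have hHc : Set.ncard ({g : φ.range | (g : M) ∈ FrobImg φ S E}ᶜ) =
      Set.ncard ((FrobImg φ S E)ᶜ ∩ (φ.range : Set M)) := by
    rw [← Set.ncard_image_of_injective _ Subtype.val_injective]
    congr 1
    ext g
    constructor
    · rintro ⟨x, hx, rfl⟩
      exact ⟨hx, x.2⟩
    · rintro ⟨h1, h2⟩
      exact ⟨⟨g, h2⟩, h1, rfl⟩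
  rw [hHc]
  have hcard : (0 : ℝ) ≤ Nat.card φ.range := Nat.cast_nonneg _
  have h1 : η * (Nat.card φ.range : ℝ) ≤ 1 / 8 * Nat.card φ.range :=
    mul_le_mul_of_nonneg_right hη hcard
  have h2 : (8 : ℝ) * (Set.ncard ((FrobImg φ S E)ᶜ ∩ (φ.range : Set M)) : ℝ) ≤
      Nat.card φ.range := by linarith
  exact_mod_cast h2

end Count

section Diag

variable {k : Type} [Field k]

/-- Cayley–Hamilton for `2 × 2` matrices. -/
theorem mul_self_fin_two (A : Matrix (Fin 2) (Fin 2) k) :
    A * A = A.trace • A - A.det • (1 : Matrix (Fin 2) (Fin 2) k) := by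
  ext i j
  fin_cases i <;> fin_cases j <;>
    simp [Matrix.mul_apply, Fin.sum_univ_two, Matrix.trace_fin_two, Matrix.det_fin_two] <;> ring

/-- An eigenvalue of a `2 × 2` matrix is a root of `X² - tr X + det`. -/
theorem eigen_quadratic (A : Matrix (Fin 2) (Fin 2) k) {v : Fin 2 → k} (hv : v ≠ 0) {c : k}
    (hc : A *ᵥ v = c • v) : c * c + A.det = A.trace * c := by
  have h1 : (A * A) *ᵥ v = (c * c) • v := by
    rw [← Matrix.mulVec_mulVec, hc, Matrix.mulVec_smul, hc, smul_smul]
  rw [mul_self_fin_two, Matrix.sub_mulVec, Matrix.smul_mulVec, Matrix.smul_mulVec, hc,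
    Matrix.one_mulVec, smul_smul] at h1
  have h2 : (A.trace * c - A.det - c * c) • v = 0 := by
    rw [sub_smul, sub_smul, h1]
    abel
  rcases smul_eq_zero.mp h2 with h3 | h3
  · linear_combination -h3
  · exact absurd h3 hv

/-- **Diagonal semisimplification** of a two-dimensional representation with a common
eigenvector. -/
theorem exists_diag_of_eigen (φ : Γ →* GL (Fin 2) k) (v : Fin 2 → k) (hv : v ≠ 0)
    (hev : ∀ σ : Γ, ∃ c : k, (φ σ).val *ᵥ v = c • v) :
    ∃ φ' : Γ →* GL (Fin 2) k, (∀ σ, (φ' σ).val.trace = (φ σ).val.trace) ∧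
      (∀ σ, (φ' σ).val.det = (φ σ).val.det) ∧ (∀ σ, φ σ = 1 → φ' σ = 1) ∧
      (∀ σ, (φ' σ).val 0 1 = 0 ∧ (φ' σ).val 1 0 = 0) := by
  choose c hc using hev
  have hinj := smul_left_injective k hv
  have hc1 : ∀ σ, φ σ = 1 → c σ = 1 := by
    intro σ hσ
    apply hinj
    have := hc σ
    rw [hσ] at this
    simp only [Units.val_one, Matrix.one_mulVec] at this
    simp only [one_smul]
    exact this.symm
  have hcmul : ∀ σ τ, c (σ * τ) = c σ * c τ := by
    intro σ τ
    apply hinj
    simp only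
    rw [← hc (σ * τ), map_mul, Units.val_mul, ← Matrix.mulVec_mulVec, hc τ, Matrix.mulVec_smul,
      hc σ, smul_smul, mul_comm]
  have hcne : ∀ σ, c σ ≠ 0 := by
    intro σ h0
    have h1 : c (σ * σ⁻¹) = 1 := hc1 _ (by rw [mul_inv_cancel, map_one])
    rw [hcmul, h0, zero_mul] at h1
    exact zero_ne_one h1
  have hquad : ∀ σ, c σ * c σ + (φ σ).val.det = (φ σ).val.trace * c σ :=
    fun σ => eigen_quadratic _ hv (hc σ)
  let D : Γ →* Matrix (Fin 2) (Fin 2) k :=
    { toFun := fun σ => Matrix.diagonal ![c σ, (φ σ).val.det / c σ]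
      map_one' := by
        rw [hc1 1 (map_one φ), map_one]
        ext i j
        fin_cases i <;> fin_cases j <;> simp
      map_mul' := by
        intro σ τ
        rw [Matrix.diagonal_mul_diagonal]
        congr 1
        funext i
        have h1 := hcne σ
        have h2 := hcne τ
        fin_cases i
        · simp [hcmul]
        · simp only [hcmul, map_mul, Units.val_mul, Matrix.det_mul]
          simp
          field_simp }
  have hD : ∀ σ, D σ = Matrix.diagonal ![c σ, (φ σ).val.det / c σ] := fun _ => rfl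
  refine ⟨D.toHomUnits, fun σ => ?_, fun σ => ?_, fun σ hσ => ?_, fun σ => ?_⟩
  · rw [MonoidHom.coe_toHomUnits, hD, Matrix.trace_diagonal, Fin.sum_univ_two]
    have h1 := hcne σ
    have h2 := hquad σ
    simp only [Matrix.cons_val_zero, Matrix.cons_val_one]
    field_simp
    linear_combination h2
  · rw [MonoidHom.coe_toHomUnits, hD, Matrix.det_diagonal, Fin.prod_univ_two]
    have h1 := hcne σ
    simp only [Matrix.cons_val_zero, Matrix.cons_val_one]
    field_simp
  · apply Units.ext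
    rw [MonoidHom.coe_toHomUnits, hD, hc1 σ hσ, hσ]
    ext i j
    fin_cases i <;> fin_cases j <;> simp
  · rw [MonoidHom.coe_toHomUnits, hD]
    exact ⟨Matrix.diagonal_apply_ne _ (by decide), Matrix.diagonal_apply_ne _ (by decide)⟩

end Diag

section Main

variable {k : Type} [Field k]

/-- The bound in the diagonal case. -/
theorem card_range_le_of_diag (hcheb : ChebLower) (φ : Γ →* GL (Fin 2) k)
    (hfin : GaloisFactorsThroughFiniteLevel φ) (S : Finset ℕ) (E : Set ℕ) {η : ℝ}
    (hE : UpDens E η) (hη : η ≤ 1 / 8) (P : Finset (k × k))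
    (hP : ∀ p : ℕ, p.Prime → p ∉ S → p ∉ E → ∀ (A : ValuationSubring Qb) (σ : Γ),
      A.LiesOverPrime p → A.IsFrobeniusAt σ p → ((φ σ).val.trace, (φ σ).val.det) ∈ P)
    (hdiag : ∀ σ, (φ σ).val 0 1 = 0 ∧ (φ σ).val 1 0 = 0) :
    Nat.card φ.range ≤ 2 * max ((2 * P.card) ^ 4) (4 * P.card) := by
  classical
  have hfr : Finite φ.range := finite_range φ hfin
  let ρm : φ.range →* Matrix (Fin 2) (Fin 2) k := (Units.coeHom _).comp φ.range.subtype
  have hρm : ∀ g : φ.range, ρm g = (g : GL (Fin 2) k).val := fun _ => rfl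
  have hinj : Function.Injective ρm := by
    intro g h hgh
    rw [hρm, hρm] at hgh
    exact Subtype.ext (Units.ext hgh)
  have hd : ∀ g, ρm g 0 1 = 0 ∧ ρm g 1 0 = 0 := by
    rintro ⟨_, σ, rfl⟩
    exact hdiag σ
  have hPH : ∀ h ∈ {g : φ.range | (g : GL (Fin 2) k) ∈ FrobImg φ S E},
      (Matrix.trace (ρm h), Matrix.det (ρm h)) ∈ pairs₂ P :=
    fun h hh => trace_det_mem_pairs₂ φ S E P hP _ hh
  have hcard := FewTraces.card_le_of_diagonal ρm hinj hd _ (pairs₂ P) hPH
  have h8 := ncard_compl_le hcheb φ hfin S E hE hη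
  have h2 := card_pairs₂_le P
  have hmax : 4 * P.card ≤ max ((2 * P.card) ^ 4) (4 * P.card) := le_max_right _ _
  omega

/-- The bound in the irreducible case. -/
theorem card_range_le_of_no_eigen [IsAlgClosed k] (hcheb : ChebLower) (φ : Γ →* GL (Fin 2) k)
    (hfin : GaloisFactorsThroughFiniteLevel φ) (S : Finset ℕ) (E : Set ℕ) {η : ℝ}
    (hE : UpDens E η) (hη : η ≤ 1 / 8) (P : Finset (k × k))
    (hP : ∀ p : ℕ, p.Prime → p ∉ S → p ∉ E → ∀ (A : ValuationSubring Qb) (σ : Γ),
      A.LiesOverPrime p → A.IsFrobeniusAt σ p → ((φ σ).val.trace, (φ σ).val.det) ∈ P)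
    (hno : ¬ ∃ v : Fin 2 → k, v ≠ 0 ∧ ∀ σ : Γ, ∃ c : k, (φ σ).val *ᵥ v = c • v) :
    Nat.card φ.range ≤ 2 * max ((2 * P.card) ^ 4) (4 * P.card) := by
  classical
  have hfr : Finite φ.range := finite_range φ hfin
  let ρU : φ.range →* Module.End k (Fin 2 → k) :=
    Deformation.matrixRepresentation φ.range.subtype
  have hρU : ∀ g : φ.range, ρU g = Matrix.toLin' (g : GL (Fin 2) k).val := fun g => by
    rw [Matrix.toLin'_apply']
    exact Deformation.matrixRepresentation_apply _ g
  have hinj : Function.Injective ρU := by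
    intro g h hgh
    rw [hρU, hρU] at hgh
    exact Subtype.ext (Units.ext (Matrix.toLin'.injective hgh))
  have hss : ∀ W : Submodule k (Fin 2 → k), (∀ g, ∀ x ∈ W, ρU g x ∈ W) →
      ∃ W' : Submodule k (Fin 2 → k), (∀ g, ∀ x ∈ W', ρU g x ∈ W') ∧ IsCompl W W' := by
    intro W hW
    by_cases hbot : W = ⊥
    · exact ⟨⊤, fun _ _ _ => Submodule.mem_top, hbot ▸ isCompl_bot_top⟩
    by_cases htop : W = ⊤
    · refine ⟨⊥, fun g x hx => ?_, htop ▸ isCompl_top_bot⟩
      rw [Submodule.mem_bot] at hx ⊢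
      rw [hx, map_zero]
    exfalso
    have h2 : Module.finrank k (Fin 2 → k) = 2 := Module.finrank_fin_fun k
    have hlt : Module.finrank k W < 2 := by
      have h3 := Submodule.finrank_lt htop
      rw [h2] at h3
      exact h3
    have hpos : 0 < Module.finrank k W := by
      obtain ⟨w, hw, hw0⟩ := Submodule.exists_mem_ne_zero_of_ne_bot hbot
      exact Module.finrank_pos_iff_exists_ne_zero.mpr ⟨⟨w, hw⟩, fun h => hw0 (congrArg Subtype.val h)⟩
    have h1 : Module.finrank k W = 1 := by omega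
    obtain ⟨v, hv0, hv⟩ := finrank_eq_one_iff'.mp h1
    apply hno
    refine ⟨v.1, fun h => hv0 (Subtype.ext h), fun σ => ?_⟩
    have hmem := hW ⟨φ σ, σ, rfl⟩ v.1 v.2
    obtain ⟨c, hc⟩ := hv ⟨_, hmem⟩
    refine ⟨c, ?_⟩
    have h3 : c • v.1 = ρU ⟨φ σ, σ, rfl⟩ v.1 := congrArg Subtype.val hc
    have h4 : ρU ⟨φ σ, σ, rfl⟩ v.1 = (φ σ).val *ᵥ v.1 := by
      rw [hρU, Matrix.toLin'_apply]
    rw [← h4, ← h3]
  have hPH : ∀ h ∈ {g : φ.range | (g : GL (Fin 2) k) ∈ FrobImg φ S E},
      (LinearMap.trace k (Fin 2 → k) (ρU h), LinearMap.det (ρU h)) ∈ pairs₂ P := by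
    intro h hh
    rw [hρU, Matrix.trace_toLin'_eq, LinearMap.det_toLin']
    exact trace_det_mem_pairs₂ φ S E P hP _ hh
  have hcard := FewTraces.card_le_of_semisimple (Module.finrank_fin_fun k) ρU hinj hss _
    (pairs₂ P) hPH
  have h8 := ncard_compl_le hcheb φ hfin S E hE hη
  have h2 := card_pairs₂_le P
  have hmax : max ((pairs₂ P).card ^ 4) (2 * (pairs₂ P).card) ≤
      max ((2 * P.card) ^ 4) (4 * P.card) := by
    apply max_le_max
    · exact Nat.pow_le_pow_left h2 4
    · omega
  omega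

/-- **Step 3 of Deligne–Serre, abstract form.** Let `ρbar` be a two-dimensional representation
of finite level over an algebraically closed field such that, outside a finite set `S` and a
set `E` of primes of upper density `≤ 1/8`, the Frobenius elements have (trace, determinant) in
a finite set `P`. Then there is a representation `ρ'` with the same characteristic polynomials
and kernel containing that of `ρbar`, whose image has at most
`2 * max ((2 |P|) ^ 4) (4 |P|)` elements. -/
theorem exists_bounded [IsAlgClosed k] (hcheb : ChebLower) (ρbar : Γ →* GL (Fin 2) k)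
    (hfin : GaloisFactorsThroughFiniteLevel ρbar) (S : Finset ℕ) (E : Set ℕ) {η : ℝ}
    (hE : UpDens E η) (hη : η ≤ 1 / 8) (P : Finset (k × k))
    (hP : ∀ p : ℕ, p.Prime → p ∉ S → p ∉ E → ∀ (A : ValuationSubring Qb) (σ : Γ),
      A.LiesOverPrime p → A.IsFrobeniusAt σ p →
        ((ρbar σ).val.trace, (ρbar σ).val.det) ∈ P) :
    ∃ ρ' : Γ →* GL (Fin 2) k, (∀ g, (ρ' g).val.charpoly = (ρbar g).val.charpoly) ∧
      (∀ g, ρbar g = 1 → ρ' g = 1) ∧
      Nat.card ρ'.range ≤ 2 * max ((2 * P.card) ^ 4) (4 * P.card) := by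
  by_cases hev : ∃ v : Fin 2 → k, v ≠ 0 ∧ ∀ σ : Γ, ∃ c : k, (ρbar σ).val *ᵥ v = c • v
  · obtain ⟨v, hv, hc⟩ := hev
    obtain ⟨ρ', htr, hdet, hker, hdiag⟩ := exists_diag_of_eigen ρbar v hv hc
    refine ⟨ρ', fun g => ?_, hker, ?_⟩
    · rw [Matrix.charpoly_fin_two, Matrix.charpoly_fin_two, htr, hdet]
    · refine card_range_le_of_diag hcheb ρ' (finiteLevel_of_ker_le ρbar ρ' hfin hker) S E hE hη P
        (fun p hp hpS hpE A σ hA hσ => ?_) hdiag
      rw [htr, hdet]
      exact hP p hp hpS hpE A σ hA hσ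
  · exact ⟨ρbar, fun _ => rfl, fun _ h => h,
      card_range_le_of_no_eigen hcheb ρbar hfin S E hE hη P hP hev⟩

end Main

end Fermat.Agent.S48.Dens
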