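import Mathlib
import Fermat.Prelude.Def_GaloisRep_Residual
import Fermat.Agent.Lib.FrobDensity.Series
import Fermat.Agent.S48.Dens.Basic

/-!
# S48 (Deligne–Serre), brick J.DENS: from Dirichlet-series asymptotics to `LowDens` / `ChebLower`

* `lowDens_of_DS` : a lower bound `(δ - ε) log (1/(s-1)) - C ≤ DS 1_E s` for the indicator series
  of a set of primes `E` gives `LowDens E δ` (finite partial sums approximate the series).
* `ChebQb` : Chebotarev's theorem (up to inversion, little-o form) for surjective homomorphisms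
  `π : Gal(ℚ̄/ℚ) → G` of finite level, in the vocabulary of `Lib/FrobDensity/Series` — the literal
  conclusion of `Lib.Chebotarev.LiftQbTransfer.chebotarev_Qb`.
* `chebLower_of_chebQb : ChebQb → ChebLower`.
-/

set_option autoImplicit false

namespace Fermat.Agent.S48.Dens

open Fermat.Agent.Lib.FrobDensity

local notation "Qb" => AlgebraicClosure ℚ
local notation "Γ" => (AlgebraicClosure ℚ ≃ₐ[ℚ] AlgebraicClosure ℚ)

/-- Lower density from a lower bound for the indicator Dirichlet series (the indicator `c` is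
given by its two defining properties, so that no `Decidable` instance is involved). -/
theorem lowDens_of_DS {E : Set ℕ} (hE : ∀ p ∈ E, p.Prime) {δ : ℝ} (c : ℕ → ℝ)
    (hc1 : ∀ p ∈ E, c p = 1) (hc0 : ∀ p, p ∉ E → c p = 0)
    (h : ∀ ε : ℝ, 0 < ε → ∃ C : ℝ, ∀ s : ℝ, 1 < s → s ≤ 2 →
      (δ - ε) * Real.log (1 / (s - 1)) - C ≤ DS c s) :
    LowDens E δ := by
  classical
  intro ε hε
  obtain ⟨C, hC⟩ := h ε hε
  refine ⟨C + 1, fun s hs hs2 => ?_⟩
  have hcb : ∀ n, |c n| ≤ 1 := by
    intro n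
    by_cases hn : n ∈ E
    · rw [hc1 n hn, abs_one]
    · rw [hc0 n hn, abs_zero]
      exact zero_le_one
  have hsum : Summable (fun n : ℕ => c n * (n : ℝ) ^ (-s)) := summable_DS hcb hs
  have htend := hsum.hasSum.tendsto_sum_nat
  have hlt : DS c s - 1 < DS c s := by linarith
  obtain ⟨n, hn⟩ := (htend.eventually (lt_mem_nhds hlt)).exists
  refine ⟨(Finset.range n).filter (· ∈ E), fun p hp => ?_, ?_⟩
  · have h1 := (Finset.mem_filter.mp hp).2
    exact ⟨hE p h1, h1⟩
  · have e : ∑ p ∈ (Finset.range n).filter (· ∈ E), 1 / (p : ℝ) ^ s =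
        ∑ i ∈ Finset.range n, c i * (i : ℝ) ^ (-s) := by
      rw [Finset.sum_filter]
      refine Finset.sum_congr rfl fun i _ => ?_
      split_ifs with hi
      · rw [hc1 i hi, one_mul, Real.rpow_neg (Nat.cast_nonneg i), one_div]
      · rw [hc0 i hi, zero_mul]
    rw [e]
    have h2 := hC s hs hs2
    linarith

/-- **Chebotarev over `ℚ`, up to inversion, little-o form, `ℚ̄`-vocabulary**: the conclusion of
`Lib.Chebotarev.LiftQbTransfer.chebotarev_Qb`, with the indicator function of the Frobenius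
primes given by its two defining properties (no `Decidable` instance in the statement). -/
def ChebQb : Prop :=
  ∀ {G : Type} [Group G] [Finite G] (π : Γ →* G), Function.Surjective π →
    (∃ L : IntermediateField ℚ Qb, FiniteDimensional ℚ L ∧
      ∀ σ : Γ, (∀ x ∈ L, σ x = x) → π σ = 1) →
    ∀ (S : Finset ℕ) (X : Set G), (∀ g x, x ∈ X → g * x * g⁻¹ ∈ X) → (∀ x ∈ X, x⁻¹ ∈ X) →
    ∀ c : ℕ → ℝ, (∀ p ∈ FrobPrimes π S X, c p = 1) → (∀ p, p ∉ FrobPrimes π S X → c p = 0) →
    ∀ ε : ℝ, 0 < ε → ∃ C : ℝ, ∀ s : ℝ, 1 < s → s ≤ 2 →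
      |DS c s - (Nat.card X : ℝ) / (Nat.card G : ℝ) * Real.log (1 / (s - 1))|
        ≤ ε * Real.log (1 / (s - 1)) + C

/-- The Chebotarev brick in its `ℚ̄` form gives the lower-density interface `ChebLower`. -/
theorem chebLower_of_chebQb (h : ChebQb) : ChebLower := by
  intro G _ φ hfin S X hconj hinv
  classical
  have hfr : Finite φ.range := finite_range φ hfin
  have hπlev : ∃ L : IntermediateField ℚ Qb, FiniteDimensional ℚ L ∧
      ∀ σ : Γ, (∀ x ∈ L, σ x = x) → φ.rangeRestrict σ = 1 := by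
    obtain ⟨L, hL, hφ⟩ := hfin
    exact ⟨L, hL, fun σ hσ => Subtype.ext (hφ σ hσ)⟩
  have hconj' : ∀ g x : φ.range, x ∈ {y : φ.range | (y : G) ∈ X} →
      g * x * g⁻¹ ∈ {y : φ.range | (y : G) ∈ X} := fun g x hx => hconj x.1 hx g.1 g.2
  have hinv' : ∀ x ∈ {y : φ.range | (y : G) ∈ X}, x⁻¹ ∈ {y : φ.range | (y : G) ∈ X} :=
    fun x hx => hinv x.1 hx
  have hcard : Nat.card {y : φ.range | (y : G) ∈ X} = Set.ncard (X ∩ (φ.range : Set G)) := by
    rw [Nat.card_coe_set_eq, ← Set.ncard_image_of_injective _ Subtype.val_injective]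
    congr 1
    ext g
    constructor
    · rintro ⟨x, hx, rfl⟩
      exact ⟨hx, x.2⟩
    · rintro ⟨h1, h2⟩
      exact ⟨⟨g, h2⟩, h1, rfl⟩
  have hset : FrobPrimes φ.rangeRestrict S {y : φ.range | (y : G) ∈ X} = FrobPrimes φ S X := rfl
  refine lowDens_of_DS (fun p hp => hp.1) (fun p => if p ∈ FrobPrimes φ S X then 1 else 0)
    (fun p hp => if_pos hp) (fun p hp => if_neg hp) fun ε hε => ?_
  obtain ⟨C, hC⟩ := h φ.rangeRestrict φ.rangeRestrict_surjective hπlev S _ hconj' hinv'
    (fun p => if p ∈ FrobPrimes φ S X then 1 else 0)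
    (fun p hp => if_pos (hset ▸ hp)) (fun p hp => if_neg (hset ▸ hp)) ε hε
  refine ⟨C, fun s hs hs2 => ?_⟩
  have h1 := hC s hs hs2
  rw [hcard] at h1
  have h2 := (abs_le.mp h1).1
  linarith

end Fermat.Agent.S48.Dens
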