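import Fermat.Agent.Lib.Chebotarev.LiftQbTransfer
import Fermat.Agent.S48.Dens.FromDS

/-!
# S48 (Deligne–Serre): the Chebotarev brick (number-field form) gives `Dens.ChebLower`

`Lib.Chebotarev.LiftQbTransfer.chebotarev_Qb_coeff` (helper125) turns the number-field statement
`ChebStatement L` (for all Galois number fields `L`) into the `ℚ̄`-form `Dens.ChebQb`;
`Dens.chebLower_of_chebQb` then gives the lower-density interface consumed by Steps 3 and 7.
-/

set_option autoImplicit false

namespace Fermat.Agent.S48.Dens

open Fermat.Agent.Lib.Chebotarev.LiftQbTransfer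

/-- The `ℚ̄`-form of Chebotarev from the number-field form. -/
theorem chebQb_of_chebStatement
    (hCheb : ∀ (L : Type) [Field L] [NumberField L] [IsGalois ℚ L], ChebStatement L) :
    ChebQb := by
  intro G _ _ π hsurj hlev S X hconj hinv c hc1 hc0 ε hε
  exact chebotarev_Qb_coeff hCheb π hsurj hlev X hconj hinv S c
    (fun p hpS hp hex => hc1 p ⟨hp, hpS, hex⟩)
    (fun p hpS hnot => hc0 p (fun hmem => hnot ⟨hmem.1, hmem.2.2⟩)) ε hε

/-- **`ChebLower` from the Chebotarev brick** (number-field form, all Galois number fields). -/
theorem chebLower_of_chebStatement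
    (hCheb : ∀ (L : Type) [Field L] [NumberField L] [IsGalois ℚ L], ChebStatement L) :
    ChebLower :=
  chebLower_of_chebQb (chebQb_of_chebStatement hCheb)

end Fermat.Agent.S48.Dens
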