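import Mathlib
import Fermat.Prelude.Def_GaloisRep_Residual
import Fermat.Agent.S48.Dens.Basic

/-!
# S48 (Deligne–Serre), brick J.DENS, Step 7 (analytic half)

If the traces of Frobenius of a sum of two finite-order characters `χ₁ + χ₂` of `Gal(ℚ̄/ℚ)` are
the numbers `a p`, then `∑_p |a p|² p^{-s}` grows at least like `2 · log (1/(s-1))`
(Chebotarev's lower bound on the level sets of `|χ₁ + χ₂|²`, whose mean value is
`2 + 2 Re ⟨χ₁, χ₂⟩ ≥ 2`).  This contradicts the Rankin-type bound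
`∑_p |a p|² p^{-s} ≤ log (1/(s-1)) + O(1)`.
-/

set_option autoImplicit false

namespace Fermat.Agent.S48.Dens

local notation "Qb" => AlgebraicClosure ℚ
local notation "Γ" => (AlgebraicClosure ℚ ≃ₐ[ℚ] AlgebraicClosure ℚ)

/-- The class function `|x + y|²` on pairs of units. -/
noncomputable def vsq (g : ℂˣ × ℂˣ) : ℝ := ‖(g.1 : ℂ) + (g.2 : ℂ)‖ ^ 2

theorem vsq_nonneg (g : ℂˣ × ℂˣ) : 0 ≤ vsq g := sq_nonneg _

theorem vsq_inv {g : ℂˣ × ℂˣ} (h1 : ‖(g.1 : ℂ)‖ = 1) (h2 : ‖(g.2 : ℂ)‖ = 1) :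
    vsq g⁻¹ = vsq g := by
  unfold vsq
  have e1 : ((g⁻¹).1 : ℂ) = (starRingEnd ℂ) (g.1 : ℂ) := by
    rw [Prod.fst_inv, Units.val_inv_eq_inv_val, Complex.inv_eq_conj h1]
  have e2 : ((g⁻¹).2 : ℂ) = (starRingEnd ℂ) (g.2 : ℂ) := by
    rw [Prod.snd_inv, Units.val_inv_eq_inv_val, Complex.inv_eq_conj h2]
  rw [e1, e2, ← map_add, Complex.norm_conj]

theorem vsq_eq {g : ℂˣ × ℂˣ} (h1 : ‖(g.1 : ℂ)‖ = 1) (h2 : ‖(g.2 : ℂ)‖ = 1) :
    vsq g = 2 + 2 * ((g.1 : ℂ) * ((g.2⁻¹ : ℂˣ) : ℂ)).re := by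
  unfold vsq
  rw [Complex.sq_norm, Complex.normSq_add, ← Complex.sq_norm, ← Complex.sq_norm, h1, h2,
    Units.val_inv_eq_inv_val, Complex.inv_eq_conj h2]
  norm_num

/-- The mean value of `|x + y|²` over a finite group of pairs of roots of unity is at least 2. -/
theorem sum_vsq_ge {G : Subgroup (ℂˣ × ℂˣ)} [Fintype G]
    (hnorm : ∀ g ∈ G, ‖(g.1 : ℂ)‖ = 1 ∧ ‖(g.2 : ℂ)‖ = 1) :
    2 * (Fintype.card G : ℝ) ≤ ∑ g : G, vsq g.1 := by
  classical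
  let ψ : G →* ℂ := (Units.coeHom ℂ).comp
    (((MonoidHom.fst ℂˣ ℂˣ).comp G.subtype) * ((MonoidHom.snd ℂˣ ℂˣ).comp G.subtype)⁻¹)
  have hψ : ∀ g : G, ψ g = (g.1.1 : ℂ) * ((g.1.2⁻¹ : ℂˣ) : ℂ) := fun g => by
    simp [ψ]
  have hsum := sum_hom_units ψ
  have hre : 0 ≤ (∑ g : G, ψ g).re := by
    rw [hsum]
    split_ifs <;> simp
  have h1 : ∑ g : G, vsq g.1 = 2 * (Fintype.card G : ℝ) + 2 * (∑ g : G, ψ g).re := by
    rw [Complex.re_sum, Finset.mul_sum]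
    have h2 : (2 * (Fintype.card G : ℝ)) = ∑ _g : G, (2 : ℝ) := by
      simp [mul_comm]
    rw [h2, ← Finset.sum_add_distrib]
    refine Finset.sum_congr rfl fun g _ => ?_
    rw [vsq_eq (hnorm g.1 g.2).1 (hnorm g.1 g.2).2, hψ]
  linarith

/-- **Step 7 of Deligne–Serre, analytic half.** The Frobenius traces of a sum of two characters
of finite level cannot satisfy the Rankin-type bound with constant `1`. -/
theorem false_of_characters (hcheb : ChebLower) (χ₁ χ₂ : Γ →* ℂˣ)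
    (h₁ : GaloisFactorsThroughFiniteLevel χ₁) (h₂ : GaloisFactorsThroughFiniteLevel χ₂)
    (S : Finset ℕ) (a : ℕ → ℂ)
    (ha : ∀ p : ℕ, p.Prime → p ∉ S → ∀ (A : ValuationSubring Qb) (σ : Γ),
      A.LiesOverPrime p → A.IsFrobeniusAt σ p → a p = (χ₁ σ : ℂ) + (χ₂ σ : ℂ))
    (hF : ∃ C : ℝ, ∀ s : ℝ, 1 < s → s ≤ 2 → ∀ P : Finset ℕ, (∀ p ∈ P, p.Prime ∧ p ∉ S) →
      ∑ p ∈ P, ‖a p‖ ^ 2 / (p : ℝ) ^ s ≤ Real.log (1 / (s - 1)) + C) : False := by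
  classical
  obtain ⟨Cf, hCf⟩ := hF
  let Φ : Γ →* ℂˣ × ℂˣ := χ₁.prod χ₂
  have hΦ : GaloisFactorsThroughFiniteLevel Φ := by
    obtain ⟨L₁, hL₁, hχ₁⟩ := h₁
    obtain ⟨L₂, hL₂, hχ₂⟩ := h₂
    refine ⟨L₁ ⊔ L₂, IntermediateField.finiteDimensional_sup L₁ L₂, fun σ hσ => ?_⟩
    have e1 := hχ₁ σ (fun x hx => hσ x ((le_sup_left : L₁ ≤ L₁ ⊔ L₂) hx))
    have e2 := hχ₂ σ (fun x hx => hσ x ((le_sup_right : L₂ ≤ L₁ ⊔ L₂) hx))
    exact Prod.ext e1 e2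
  have hfr : Finite Φ.range := finite_range Φ hΦ
  have : Fintype Φ.range := Fintype.ofFinite _
  have hn0 : Nat.card Φ.range ≠ 0 := Nat.card_pos.ne'
  have hnorm : ∀ g ∈ Φ.range, ‖(g.1 : ℂ)‖ = 1 ∧ ‖(g.2 : ℂ)‖ = 1 := by
    intro g hg
    have hpow : (⟨g, hg⟩ : Φ.range) ^ Nat.card Φ.range = 1 := pow_card_eq_one'
    have hpow' : g ^ Nat.card Φ.range = 1 := by
      have := congrArg Subtype.val hpow
      simpa using this
    have e1 : (g.1 : ℂ) ^ Nat.card Φ.range = 1 := by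
      have := congrArg (fun x : ℂˣ × ℂˣ => (x.1 : ℂ)) hpow'
      simpa using this
    have e2 : (g.2 : ℂ) ^ Nat.card Φ.range = 1 := by
      have := congrArg (fun x : ℂˣ × ℂˣ => (x.2 : ℂ)) hpow'
      simpa using this
    exact ⟨Complex.norm_eq_one_of_pow_eq_one e1 hn0, Complex.norm_eq_one_of_pow_eq_one e2 hn0⟩
  -- level sets of `vsq` on the image
  let X : ℝ → Set (ℂˣ × ℂˣ) := fun t => {g | g ∈ Φ.range ∧ vsq g = t}
  have hlow : ∀ t, LowDens (FrobPrimes Φ S (X t))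
      ((Set.ncard (X t ∩ (Φ.range : Set (ℂˣ × ℂˣ))) : ℝ) / Nat.card Φ.range) := by
    intro t
    apply hcheb _ Φ hΦ S (X t)
    · rintro g ⟨hg, hgt⟩ h -
      rw [mul_inv_cancel_comm]
      exact ⟨hg, hgt⟩
    · rintro g ⟨hg, hgt⟩
      exact ⟨Φ.range.inv_mem hg, by rw [vsq_inv (hnorm g hg).1 (hnorm g hg).2, hgt]⟩
  let V : Finset ℝ := Finset.univ.image (fun g : Φ.range => vsq g.1)
  have hV0 : ∀ t ∈ V, 0 ≤ t := by
    intro t ht
    obtain ⟨g, -, rfl⟩ := Finset.mem_image.mp ht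
    exact vsq_nonneg _
  have hncard : ∀ t, Set.ncard (X t ∩ (Φ.range : Set (ℂˣ × ℂˣ))) =
      (Finset.univ.filter (fun g : Φ.range => vsq g.1 = t)).card := by
    intro t
    rw [← Set.ncard_coe_finset, ← Set.ncard_image_of_injective _ Subtype.val_injective]
    congr 1
    ext g
    constructor
    · rintro ⟨⟨hg, hgt⟩, -⟩
      exact ⟨⟨g, hg⟩, by simpa using hgt, rfl⟩
    · rintro ⟨x, hx, rfl⟩
      have hx' : vsq x.1 = t := by simpa using hx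
      exact ⟨⟨x.2, hx'⟩, x.2⟩
  have hmean : 2 * (Nat.card Φ.range : ℝ) ≤
      ∑ t ∈ V, t * (Set.ncard (X t ∩ (Φ.range : Set (ℂˣ × ℂˣ))) : ℝ) := by
    have h1 : ∑ t ∈ V, t * (Set.ncard (X t ∩ (Φ.range : Set (ℂˣ × ℂˣ))) : ℝ) =
        ∑ g : Φ.range, vsq g.1 := by
      rw [← Finset.sum_fiberwise_of_maps_to (s := Finset.univ) (t := V)
        (g := fun g : Φ.range => vsq g.1)
        (fun g _ => Finset.mem_image_of_mem _ (Finset.mem_univ g))]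
      refine Finset.sum_congr rfl fun t _ => ?_
      rw [hncard, Finset.sum_congr rfl (fun g hg => (Finset.mem_filter.mp hg).2),
        Finset.sum_const, nsmul_eq_mul, mul_comm]
    rw [h1, Nat.card_eq_fintype_card]
    exact sum_vsq_ge hnorm
  -- constants
  set St : ℝ := ∑ t ∈ V, t with hSt
  have hS0 : 0 ≤ St := Finset.sum_nonneg hV0
  set ε : ℝ := 1 / (2 * (St + 1)) with hε
  have hεpos : 0 < ε := by positivity
  have hεS : ε * St ≤ 1 / 2 := by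
    rw [hε, div_mul_eq_mul_div, one_mul, div_le_iff₀ (by positivity)]
    linarith
  choose Ct hCt using fun t => hlow t ε hεpos
  set C' : ℝ := ∑ t ∈ V, t * Ct t with hC'
  obtain ⟨s, hs, hs2, hB⟩ := exists_log_scale_gt (2 * (C' + Cf))
  set L := Real.log (1 / (s - 1)) with hL
  have hL0 : 0 ≤ L := log_scale_nonneg hs hs2
  choose Pt hPt using fun t => hCt t s hs hs2
  have hval : ∀ t, ∀ p ∈ Pt t, ‖a p‖ ^ 2 = t := by
    intro t p hp
    obtain ⟨hpp, hpS, A, σ, hA, hσ, -, hvt⟩ := ((hPt t).1 p hp).2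
    rw [ha p hpp hpS A σ hA hσ]
    exact hvt
  have hdisj : (V : Set ℝ).PairwiseDisjoint Pt := by
    intro t _ t' _ htt'
    rw [Function.onFun, Finset.disjoint_left]
    intro p hp hp'
    exact htt' ((hval t p hp).symm.trans (hval t' p hp'))
  have hup := hCf s hs hs2 (V.biUnion Pt) (fun p hp => by
    obtain ⟨t, -, hpt⟩ := Finset.mem_biUnion.mp hp
    have h := (hPt t).1 p hpt
    exact ⟨h.1, h.2.2.1⟩)
  rw [Finset.sum_biUnion hdisj] at hup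
  have hlower : ∑ t ∈ V, t * ((((Set.ncard (X t ∩ (Φ.range : Set (ℂˣ × ℂˣ))) : ℝ) /
      Nat.card Φ.range) - ε) * L - Ct t) ≤ ∑ t ∈ V, ∑ p ∈ Pt t, ‖a p‖ ^ 2 / (p : ℝ) ^ s := by
    refine Finset.sum_le_sum fun t ht => ?_
    have h1 : ∑ p ∈ Pt t, ‖a p‖ ^ 2 / (p : ℝ) ^ s = t * ∑ p ∈ Pt t, 1 / (p : ℝ) ^ s := by
      rw [Finset.mul_sum]
      refine Finset.sum_congr rfl fun p hp => ?_
      rw [hval t p hp, mul_one_div]
    rw [h1]
    exact mul_le_mul_of_nonneg_left (hPt t).2 (hV0 t ht)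
  have hcardpos : (0 : ℝ) < Nat.card Φ.range := by exact_mod_cast Nat.card_pos
  have hexpand : ∑ t ∈ V, t * ((((Set.ncard (X t ∩ (Φ.range : Set (ℂˣ × ℂˣ))) : ℝ) /
      Nat.card Φ.range) - ε) * L - Ct t) =
      (∑ t ∈ V, t * (Set.ncard (X t ∩ (Φ.range : Set (ℂˣ × ℂˣ))) : ℝ)) / Nat.card Φ.range * L
        - ε * St * L - C' := by
    rw [hSt, hC', Finset.sum_div, Finset.sum_mul, Finset.mul_sum, Finset.sum_mul,
      ← Finset.sum_sub_distrib, ← Finset.sum_sub_distrib]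
    refine Finset.sum_congr rfl fun t _ => ?_
    ring
  have hmean' : 2 ≤ (∑ t ∈ V, t * (Set.ncard (X t ∩ (Φ.range : Set (ℂˣ × ℂˣ))) : ℝ)) /
      Nat.card Φ.range := by
    rw [le_div_iff₀ hcardpos]
    exact hmean
  have h3 := mul_le_mul_of_nonneg_right hmean' hL0
  have h4 : ε * St * L ≤ 1 / 2 * L := mul_le_mul_of_nonneg_right hεS hL0
  rw [hexpand] at hlower
  linarith

end Fermat.Agent.S48.Dens
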